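import Mathlib
import Fermat.Prelude.Def_FormalHecke_Eigensystem

/-!
# Formal eigensystems from their values at primes
-/

set_option autoImplicit false

namespace Fermat.Agent.ResidualEigen

variable {R : Type*} [CommRing R] (e b : ℕ → R)

/-- The values at the powers of `ℓ`. -/
def ppValue (ℓ : ℕ) : ℕ → R
  | 0 => 1
  | 1 => b ℓ
  | r + 2 => b ℓ * ppValue ℓ (r + 1) - e ℓ * ppValue ℓ r

/-- The multiplicative extension. -/
def ofPrimeValues (n : ℕ) : R :=
  if n = 0 then 0 else n.factorization.prod (ppValue e b)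

theorem ofPrimeValues_zero : ofPrimeValues e b 0 = 0 := if_pos rfl

theorem ofPrimeValues_one : ofPrimeValues e b 1 = 1 := by simp [ofPrimeValues]

theorem ofPrimeValues_prime_pow {ℓ : ℕ} (hℓ : ℓ.Prime) (r : ℕ) :
    ofPrimeValues e b (ℓ ^ r) = ppValue e b ℓ r := by
  rw [ofPrimeValues, if_neg (pow_ne_zero r hℓ.ne_zero), hℓ.factorization_pow,
    Finsupp.prod_single_index]
  rfl

theorem ofPrimeValues_prime {ℓ : ℕ} (hℓ : ℓ.Prime) : ofPrimeValues e b ℓ = b ℓ := by
  have h := ofPrimeValues_prime_pow e b hℓ 1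
  rwa [pow_one] at h

theorem ofPrimeValues_mul {m n : ℕ} (h : m.Coprime n) :
    ofPrimeValues e b (m * n) = ofPrimeValues e b m * ofPrimeValues e b n := by
  rcases eq_or_ne m 0 with rfl | hm
  · rw [zero_mul, ofPrimeValues_zero, zero_mul]
  rcases eq_or_ne n 0 with rfl | hn
  · rw [mul_zero, ofPrimeValues_zero, mul_zero]
  rw [ofPrimeValues, ofPrimeValues, ofPrimeValues, if_neg (mul_ne_zero hm hn), if_neg hm, if_neg hn,
    Nat.factorization_mul hm hn, Finsupp.prod_add_index_of_disjoint]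
  simpa using h.disjoint_primeFactors

/-- The coefficients built from values at primes form a formal eigensystem. -/
theorem isEigensystem_ofPrimeValues :
    FormalHecke.IsEigensystem e (ofPrimeValues e b) := by
  refine ⟨ofPrimeValues_one e b, fun ℓ hℓ n => ?_⟩
  rcases eq_or_ne n 0 with rfl | hn
  · simp [ofPrimeValues_zero]
  obtain ⟨k, m, hm, rfl⟩ := Nat.exists_eq_pow_mul_and_not_dvd hn ℓ hℓ.ne_one
  have hco : ∀ j, (ℓ ^ j).Coprime m := fun j => (hℓ.coprime_iff_not_dvd.2 hm).pow_left j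
  rw [ofPrimeValues_prime e b hℓ, ofPrimeValues_mul e b (hco k), ofPrimeValues_prime_pow e b hℓ,
    ← mul_assoc ℓ, ← pow_succ', ofPrimeValues_mul e b (hco _), ofPrimeValues_prime_pow e b hℓ]
  cases k with
  | zero =>
    rw [if_neg (by simpa using hm)]
    simp [ppValue]
  | succ j =>
    have hd : ℓ ^ (j + 1) * m / ℓ = ℓ ^ j * m := by
      rw [pow_succ', mul_assoc, Nat.mul_div_cancel_left _ hℓ.pos]
    rw [if_pos (dvd_mul_of_dvd_left (dvd_pow_self ℓ j.succ_ne_zero) m), hd,
      ofPrimeValues_mul e b (hco j), ofPrimeValues_prime_pow e b hℓ, ppValue]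
    ring

end Fermat.Agent.ResidualEigen
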