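import Fermat.Agent.ResidualEigen.Formal
import Fermat.Agent.Root.ResidualThree
import Fermat.Agent.Conductor.SquarefreeLevel
import Fermat.Agent.Newform.BadCoeff
import Fermat.Agent.MFCore.Integral
import Fermat.Agent.S49

/-!
# A lattice realised eigensystem modulo 3 of a semistable curve

The newform of a modular curve with the same 3-torsion has rational integral coefficients; reduced
modulo 3 they give an eigensystem with the character `χ₋₃`.
-/

set_option autoImplicit false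

noncomputable section

open CongruenceSubgroup CuspForm EisensteinWeightOne WeierstrassCurve WeierstrassCurve.Affine.Point
open ModularFormClass (qCoeff)
open scoped WeierstrassCurve.Affine

namespace Fermat.Agent.ResidualEigen

local notation "ℚbar" => AlgebraicClosure ℚ

/-- A form with integral coefficients and multiplicative recursions realises the eigensystem of
its values at primes. -/
theorem isLatticeRealized_of_isNormalizedEigenform {M : ℕ} [NeZero M]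
    {g : CuspForm (Gamma0 M) 2} (hg : g.IsNormalizedEigenform) (b : ℕ → ℤ)
    (hb : ∀ ℓ : ℕ, ℓ.Prime → qCoeff ⇑g ℓ = (b ℓ : ℂ)) :
    CuspForm.IsLatticeRealized M
      (ofPrimeValues (fun ℓ => if ℓ ∣ M then 0 else ((chiNegThree ℓ : ℤ) : ℤ)) b) := by
  set e : ℕ → ℤ := fun ℓ => if ℓ ∣ M then 0 else ((chiNegThree ℓ : ℤ) : ℤ) with he
  have key : ∀ n, ∃ z : ℤ, (z : ℂ) = qCoeff ⇑g n ∧
      (z : ZMod 3) = ((ofPrimeValues e b n : ℤ) : ZMod 3) := by
    intro n
    induction n using Nat.recOnPrimeCoprime with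
    | zero => exact ⟨0, by rw [Int.cast_zero, Hecke.qCoeff_zero_index], by
        simp [ofPrimeValues_zero]⟩
    | prime_pow ℓ r hℓ =>
      rw [ofPrimeValues_prime_pow e b hℓ]
      induction r using Nat.twoStepInduction with
      | zero => exact ⟨1, by rw [pow_zero, hg.qCoeff_one, Int.cast_one], by simp [ppValue]⟩
      | one => exact ⟨b ℓ, by rw [pow_one, hb ℓ hℓ], by simp [ppValue]⟩
      | more r ih ih' =>
        obtain ⟨z, hz, hz'⟩ := ih
        obtain ⟨w, hw, hw'⟩ := ih'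
        by_cases hd : ℓ ∣ M
        · refine ⟨b ℓ * w, ?_, ?_⟩
          · rw [hg.qCoeff_prime_pow_of_dvd ℓ r hℓ hd, hb ℓ hℓ, Int.cast_mul, hw]
          · rw [ppValue, show e ℓ = 0 from if_pos hd]
            push_cast
            rw [hw', zero_mul, sub_zero]
        · refine ⟨b ℓ * w - (ℓ : ℤ) * z, ?_, ?_⟩
          · rw [hg.qCoeff_prime_pow_of_not_dvd ℓ r hℓ hd, hb ℓ hℓ, Int.cast_sub, Int.cast_mul,
              Int.cast_mul, hw, hz, Int.cast_natCast]
          · rw [ppValue, show e ℓ = chiNegThree ℓ from if_neg hd]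
            push_cast
            rw [hw', hz', S49.cast_chiNegThree]
    | coprime m n _ _ h ihm ihn =>
      obtain ⟨z, hz, hz'⟩ := ihm
      obtain ⟨w, hw, hw'⟩ := ihn
      exact ⟨z * w, by rw [hg.qCoeff_mul_of_coprime m n h, Int.cast_mul, hz, hw],
        by rw [ofPrimeValues_mul e b h, Int.cast_mul, Int.cast_mul, hz', hw']⟩
  choose af haf hmod using key
  refine ⟨g, fun n => Subring.mem_bot.2 ⟨af n, haf n⟩, af, haf, fun n => ?_⟩
  refine (ZMod.intCast_zmod_eq_zero_iff_dvd _ 3).1 ?_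
  rw [Int.cast_sub, hmod, S49.cast_bridgeProduct, sub_self]

theorem hasIntegralBasis (N : ℕ) [NeZero N] : CuspForm.HasIntegralBasis N := by
  refine top_le_iff.1 ((MFCore.hasIntegralStructure N 2).symm.le.trans (Submodule.span_le.2 ?_))
  intro f hf
  refine Submodule.span_le_restrictScalars ℤ ℂ _ ((Submodule.span_mono fun g hg n => ?_) hf)
  obtain ⟨m, hm⟩ := hg n
  exact Subring.mem_bot.2 ⟨m, hm.symm⟩

/-- **The eigensystem modulo 3.** -/
theorem exists_eigensystem (W : WeierstrassCurve ℤ) (hΔ : W.Δ ≠ 0) (hW : W.IsSemistableModel)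
    (h3 : W.ModRepIsIrreducible 3) :
    ∃ (N : ℕ) (_ : NeZero N) (a : ℕ → ℤ),
      CuspForm.HasIntegralBasis N ∧
      FormalHecke.IsEigensystem
        (fun ℓ => if ℓ ∣ N then 0 else ((chiNegThree ℓ : ℤ) : ℤ)) a ∧
      CuspForm.IsLatticeRealized N a ∧
      (∀ q : ℕ, q.Prime → q ≠ 3 → ¬ q ^ 3 ∣ N) ∧
      ∀ ℓ : ℕ, ℓ.Prime → W.IsGoodPrimeFor ℓ → ¬ ℓ ∣ N → ℓ ≠ 3 →
        (3 : ℤ) ∣ (a ℓ - W.apOfModel ℓ) := by
  classical
  obtain ⟨W', hW', ⟨Φ, hΦ⟩, -, f, hf, hfa⟩ := Root.exists_modular_congr3 W hΔ hW h3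
  have hΔ' : W'.Δ ≠ 0 := hW'.ne
  have hN0 : W'.conductorLevel ≠ 0 := W'.conductorLevel_pos.ne'
  have : NeZero W'.conductorLevel := ⟨hN0⟩
  obtain ⟨M, hMN, g, hg, hga⟩ := Newform.exists_isNewform_goodEigensystem hf
  have : NeZero M := ⟨fun h => hN0 (by subst h; simpa using hMN)⟩
  have hsq : Squarefree M := W'.squarefree_conductorLevel.squarefree_of_dvd hMN
  let D : Conductor.AttachedNewform W' M W'.conductorLevel :=
    ⟨g, hg, fun ℓ hℓ hgood hℓN => (hga ℓ hℓ hℓN).trans (hfa ℓ hℓ hgood hℓN)⟩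
  -- integral values at all primes
  have hint : ∀ ℓ : ℕ, ∃ z : ℤ, ℓ.Prime → qCoeff ⇑g ℓ = (z : ℂ) := fun ℓ => by
    by_cases hℓ : ℓ.Prime
    swap
    · exact ⟨0, fun h => absurd h hℓ⟩
    by_cases hd : ℓ ∣ M
    · rcases sq_eq_one_iff.1 (Newform.qCoeff_sq_eq_one_of_not_sq_dvd hg hℓ hd
        (fun h => hℓ.not_isUnit (hsq ℓ (by rwa [← sq])))) with h | h
      · exact ⟨1, fun _ => by rw [h, Int.cast_one]⟩
      · exact ⟨-1, fun _ => by rw [h, Int.cast_neg, Int.cast_one]⟩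
    · obtain ⟨z, hz⟩ := D.exists_int_coeff hΔ' hℓ hd
      exact ⟨z, fun _ => hz⟩
  choose b hb using hint
  refine ⟨M, inferInstance, _, hasIntegralBasis M, isEigensystem_ofPrimeValues _ b,
    isLatticeRealized_of_isNormalizedEigenform hg.1 b hb, fun q hq _ hd => ?_,
    fun ℓ hℓ hgood hℓM hℓ3 => ?_⟩
  · exact hq.not_isUnit (hsq q ((Dvd.intro q (by ring : q * q * q = q ^ 3)).trans hd))
  rw [ofPrimeValues_prime _ b hℓ]
  -- the relation on the 3-torsion of `W'` at Frobenius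
  have : Fact (Nat.Prime 3) := ⟨Nat.prime_three⟩
  obtain ⟨O, _, _, _, _, _, hO, ρ, h1, -⟩ :=
    D.exists_rep hΔ' 3
  obtain ⟨A, hA⟩ := Gal.exists_liesOverPrime (L := ℚbar) hℓ
  obtain ⟨σ, hσ⟩ := Gal.exists_isFrobeniusAt hℓ hA
  obtain ⟨a, d, ht, -, hζ, hP⟩ := Conductor.rel_of_forall_frobenius hΔ' Nat.prime_three ρ
    W'.conductorLevel.primeFactors (D.charpoly_of_not_dvd hMN h1) 1 σ
  rw [(Conductor.trO_eq_of_charpoly (h1 ℓ hℓ hℓM hℓ3 (b ℓ) (hb ℓ hℓ) A hA σ hσ)).1,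
    pow_one, ← Int.cast_sub] at ht
  have hba : (3 : ℤ) ∣ b ℓ - a := by
    by_contra hnd
    obtain ⟨u, v, huv⟩ := ((Int.prime_three.coprime_iff_not_dvd).2 hnd)
    have h1' : ((u * 3 + v * (b ℓ - a) : ℤ) : O) ∈ IsLocalRing.maximalIdeal O := by
      rw [Int.cast_add, Int.cast_mul, Int.cast_mul]
      refine add_mem (Ideal.mul_mem_left _ _ (by exact_mod_cast hO)) (Ideal.mul_mem_left _ _ ?_)
      exact (Ideal.span_singleton_le_iff_mem _).2 hO ht
    rw [huv, Int.cast_one] at h1'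
    exact (Ideal.ne_top_iff_one _).1 (IsLocalRing.maximalIdeal.isMaximal O).ne_top h1'
  -- it holds on the 3-torsion of `W`
  have hℓ3' : ¬ ℓ ∣ 3 ^ 1 := fun hd => by
    rw [pow_one] at hd
    exact hℓ3 ((Nat.prime_dvd_prime_iff_eq hℓ Nat.prime_three).1 hd)
  obtain ⟨P, hP3, hPord⟩ := Conductor.exists_exact_order hΔ Nat.prime_three (n := 1)
  have hQ : 3 ^ 1 • (σ⁻¹ • P) = 0 := by
    show 3 ^ 1 • (Affine.Point.map (σ⁻¹ : AlgebraicClosure ℚ ≃ₐ[ℚ] ℚbar).toAlgHom P) = 0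
    rw [← map_nsmul, hP3, _root_.map_zero]
  let x : Submodule.torsionBy ℤ ((W.map (Int.castRingHom ℚ))⁄ℚbar).Point (3 : ℕ) :=
    ⟨σ⁻¹ • P, by rw [Submodule.mem_torsionBy_iff, natCast_zsmul]; simpa using hQ⟩
  have e1 : σ • σ • (σ⁻¹ • P) - a • (σ • (σ⁻¹ • P)) + d • (σ⁻¹ • P) = 0 := by
    have hy : 3 ^ 1 • (Φ x).1 = 0 := by
      have := (Φ x).2
      rw [Submodule.mem_torsionBy_iff, natCast_zsmul] at this
      simp [this]
    have h' : σ • σ • x - a • (σ • x) + d • x = 0 := Φ.injective (by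
      rw [map_add, map_sub, map_zsmul, map_zsmul, _root_.map_zero, hΦ, hΦ]
      exact Subtype.ext (hP _ hy))
    exact congrArg Subtype.val h'
  have e2 := Conductor.frobenius_quadratic hℓ hgood hℓ3' hA hσ hQ
  have hd : (3 : ℤ) ^ 1 ∣ d - (ℓ : ℤ) :=
    Conductor.dvd_sub_of_forall_zpow_eq Nat.prime_three fun ζ hz => by
      rw [← hζ ζ hz, zpow_natCast, Gal.apply_rootOfUnity_of_isFrobeniusAt hσ hℓ hA hℓ3' hz]
  have hdz : (d - (ℓ : ℤ)) • (σ⁻¹ • P) = 0 := by
    obtain ⟨k, hk⟩ := hd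
    rw [hk, mul_comm, mul_zsmul, pow_one, show (3 : ℤ) = ((3 : ℕ) : ℤ) from rfl, natCast_zsmul,
      show 3 • (σ⁻¹ • P) = 0 by simpa using hQ, zsmul_zero]
  have ha : (3 : ℤ) ∣ a - W.apOfModel ℓ := by
    have h' := hPord (a - W.apOfModel ℓ) (by
      rw [smul_inv_smul] at e1 e2
      have : (a - W.apOfModel ℓ) • P = (d - (ℓ : ℤ)) • (σ⁻¹ • P) := by
        rw [sub_zsmul, sub_zsmul, ← sub_eq_zero]
        calc _ = (σ • P - W.apOfModel ℓ • P + (ℓ : ℤ) • (σ⁻¹ • P)) -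
              (σ • P - a • P + d • (σ⁻¹ • P)) := by abel
          _ = 0 := by rw [e1, e2, sub_zero]
      rw [this, hdz])
    simpa using h'
  rw [show b ℓ - W.apOfModel ℓ = (b ℓ - a) + (a - W.apOfModel ℓ) by ring]
  exact dvd_add hba ha

end Fermat.Agent.ResidualEigen
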